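import Fermat.Agent.LL.Mazur.ThicknessUnit
import Fermat.Agent.LLp.CuspPlace
import Fermat.Agent.HK.PsiPrime
import Fermat.Agent.MF.Coeff.FieldK
import Fermat.Agent.FF.Degree

/-!
# The two cusps of `X₀(p)` and the unit `Δ(τ)/Δ(pτ)`

The level is written `1 * p`. The place at `q = 0` and its image under the Atkin–Lehner involution
are the two poles of `j`, are fixed by the Galois group, and carry the divisor of
`Δ(τ)/Δ(pτ)`.
-/

set_option autoImplicit false
set_option linter.style.haveILetI false

noncomputable section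

open ModularCurve AlgebraicCurve Fermat.Agent.RED.Spec Fermat.Agent.Igusa Fermat.Agent.Carayol

namespace Fermat.Agent.Mazur.CuspTwo

open LL.Mazur

local notation "Qb" => AlgebraicClosure ℚ

theorem order_of_hasLead {R : Type} [Field R] {s : LaurentSeries R} {m : ℤ} {c : R}
    (h : HasLead s m c) (hc : c ≠ 0) : s.order = m := by
  obtain ⟨f, rfl, hf⟩ := h
  have h0 : (HahnSeries.ofPowerSeries ℤ R f).coeff (0 : ℤ) ≠ 0 := by
    rw [show (0 : ℤ) = ((0 : ℕ) : ℤ) from rfl, HahnSeries.ofPowerSeries_apply_coeff,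
      PowerSeries.coeff_zero_eq_constantCoeff, hf]
    exact hc
  have hne := HahnSeries.ne_zero_of_coeff_ne_zero h0
  have ho : (HahnSeries.ofPowerSeries ℤ R f).order = 0 := by
    refine le_antisymm (HahnSeries.order_le_of_coeff_ne_zero h0) (not_lt.mp fun hlt => ?_)
    exact hne (HahnSeries.coeff_order_eq_zero.mp (ModularCurve.ofPowerSeries_coeff_of_neg f hlt))
  rw [HahnSeries.order_mul (HahnSeries.single_ne_zero one_ne_zero) hne,
    HahnSeries.order_single one_ne_zero, ho, add_zero]

/-- Orders at the place `q = 0` of a field of Laurent series. -/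
theorem ord_orderPlace {k : Type} [Field k] (C : IntermediateField k (LaurentSeries k)) {x : C}
    (hx : (x : LaurentSeries k).order ≠ 0) (h1 : (x : LaurentSeries k).order = -1) {f : C}
    (hf : f ≠ 0) : (LLp.orderPlace C hx).ord f = (f : LaurentSeries k).order := by
  set v := LLp.orderPlace C hx
  obtain ⟨π, hπ⟩ := IsDiscreteValuationRing.exists_irreducible v.toValuationSubring
  have hπ0 : (π : C) ≠ 0 := by simpa [ZeroMemClass.coe_eq_zero] using hπ.ne_zero
  have hmul : ∀ a b : C, a ≠ 0 → b ≠ 0 → ((a * b : C) : LaurentSeries k).order =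
      (a : LaurentSeries k).order + (b : LaurentSeries k).order := fun a b ha hb =>
    HahnSeries.order_mul (fun h => ha (Subtype.ext h)) fun h => hb (Subtype.ext h)
  have hinv : ∀ a : C, a ≠ 0 → ((a⁻¹ : C) : LaurentSeries k).order =
      -(a : LaurentSeries k).order := fun a ha => by
    have h := hmul a a⁻¹ ha (inv_ne_zero ha)
    rw [mul_inv_cancel₀ ha, OneMemClass.coe_one, HahnSeries.order_one] at h
    omega
  have hzpow : ∀ (n : ℤ), (((π : C) ^ n : C) : LaurentSeries k).order =
      n * ((π : C) : LaurentSeries k).order := by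
    intro n
    induction n using Int.induction_on with
    | zero => simp
    | succ i ih => rw [zpow_add_one₀ hπ0, hmul _ _ (zpow_ne_zero _ hπ0) hπ0, ih]; ring
    | pred i ih =>
      rw [zpow_sub_one₀ hπ0, hmul _ _ (zpow_ne_zero _ hπ0) (inv_ne_zero hπ0), ih, hinv _ hπ0]
      ring
  have key : ∀ g : C, g ≠ 0 →
      (g : LaurentSeries k).order = v.ord g * ((π : C) : LaurentSeries k).order := by
    intro g hg
    obtain ⟨u, hu⟩ := v.exists_unit_mul_zpow hg hπ
    have hu0 : ((u : v.toValuationSubring) : C) ≠ 0 := by simp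
    have hue : ((↑u⁻¹ : v.toValuationSubring) : C) = ((u : v.toValuationSubring) : C)⁻¹ :=
      eq_inv_of_mul_eq_one_right (by rw [← MulMemClass.coe_mul, u.mul_inv]; rfl)
    have h1 := ((LLp.mem_orderRing C).mp (u : v.toValuationSubring).2).resolve_left hu0
    have h2 := ((LLp.mem_orderRing C).mp (↑u⁻¹ : v.toValuationSubring).2).resolve_left
      (hue ▸ inv_ne_zero hu0)
    rw [hue, hinv _ hu0] at h2
    conv_lhs => rw [hu, hmul _ _ hu0 (zpow_ne_zero _ hπ0), hzpow]
    omega
  have hπnn : 0 ≤ ((π : C) : LaurentSeries k).order :=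
    ((LLp.mem_orderRing C).mp π.2).resolve_left hπ0
  have hx0 : x ≠ 0 := fun h => hx (by rw [h, ZeroMemClass.coe_zero, HahnSeries.order_zero])
  have hone : ((π : C) : LaurentSeries k).order = 1 := by
    have h := key x hx0
    rw [h1] at h
    rcases Int.isUnit_iff.mp (isUnit_of_dvd_unit (Dvd.intro_left _ h.symm) (by simp)) with e | e
    · exact e
    · omega
  rw [key f hf, hone, mul_one]

theorem qExpand_congr {R : Type} [CommRing R] {m n : ℕ} [NeZero m] [NeZero n] (h : m = n)
    (x : LaurentSeries R) : qExpand R m x = qExpand R n x := by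
  subst h; rfl

variable (p : ℕ) [hp : Fact p.Prime] [NeZero p]

omit [NeZero p] in
theorem not_dvd_one_level : ¬ p ∣ 1 := hp.out.not_dvd_one

/-- `j` at level `p`. -/
abbrev jp : modularFunctionFieldBar (1 * p) := jFn 1 p

/-- The Atkin–Lehner involution at level `p`. -/
abbrev wp : modularFunctionFieldBar (1 * p) ≃ₐ[Qb] modularFunctionFieldBar (1 * p) :=
  wField hp.out (not_dvd_one_level p)

omit hp in
theorem coe_jp : (jp p : LaurentSeries Qb) = jqModC Qb := qExpand_one_apply _

omit hp in
theorem order_jp : (jp p : LaurentSeries Qb).order = -1 := by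
  rw [coe_jp]
  exact order_of_hasLead (hasLead_jqModC Qb) one_ne_zero

theorem coe_wp_jp : (wp p (jp p) : LaurentSeries Qb) = qExpand Qb p (jqModC Qb) := by
  rw [jp, jFn, wField_genFn]
  show genSer Qb (swapIdx hp.out _) = _
  rw [genSer]
  have h : (swapIdx (N := 1) hp.out ⟨1, one_pos, one_dvd _⟩).1 = p := by
    rw [coe_swapIdx_of_dvd hp.out (dvd_refl 1)]
    exact mul_one p
  haveI : NeZero (swapIdx (N := 1) hp.out ⟨1, one_pos, one_dvd _⟩).1 :=
    ⟨by rw [h]; exact NeZero.ne p⟩
  exact qExpand_congr h _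

theorem order_wp_jp : (wp p (jp p) : LaurentSeries Qb).order = -(p : ℤ) := by
  rw [coe_wp_jp, order_of_hasLead ((hasLead_jqModC Qb).qExpand p) one_ne_zero]
  ring

/-- The cusp at `q = 0`. -/
def cuspInf : Place Qb (modularFunctionFieldBar (1 * p)) :=
  LLp.orderPlace (modularFunctionFieldBar (1 * p)) (x := jp p) (by rw [order_jp]; norm_num)

/-- The other cusp. -/
def cuspZero : Place Qb (modularFunctionFieldBar (1 * p)) := wp p • cuspInf p

omit hp in
theorem ord_cuspInf {f : modularFunctionFieldBar (1 * p)} (hf : f ≠ 0) :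
    (cuspInf p).ord f = (f : LaurentSeries Qb).order :=
  ord_orderPlace _ _ (order_jp p) hf

theorem ord_cuspZero {f : modularFunctionFieldBar (1 * p)} (hf : f ≠ 0) :
    (cuspZero p).ord f = (wp p f : LaurentSeries Qb).order := by
  conv_lhs => rw [← wField_wField hp.out (not_dvd_one_level p) f]
  rw [cuspZero, Place.ord_smul]
  exact ord_cuspInf p (fun h => hf ((wp p).map_eq_zero_iff.mp h))

omit hp in
theorem jp_ne_zero : jp p ≠ 0 := fun h => by
  have h1 := order_jp p
  rw [h, ZeroMemClass.coe_zero, HahnSeries.order_zero] at h1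
  norm_num at h1

theorem cuspZero_ne : cuspZero p ≠ cuspInf p := fun h => by
  have h1 := ord_cuspZero p (jp_ne_zero p)
  rw [h, ord_cuspInf p (jp_ne_zero p), order_jp, order_wp_jp] at h1
  have := hp.out.one_lt
  omega

omit hp in
theorem jp_eq_jElem : jp p = MF.Coeff.jElem Qb (1 * p) := Subtype.ext (coe_jp p)

/-- The poles of `j` are the two cusps. -/
theorem eq_cusp_of_pole {P : Place Qb (modularFunctionFieldBar (1 * p))}
    (hP : jp p ∉ P.toValuationSubring) : P = cuspInf p ∨ P = cuspZero p := by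
  classical
  haveI := MF.Coeff.isFunctionField_laurentBaseChange Qb (1 * p)
  by_contra hcon
  rw [not_or] at hcon
  have hj0 := jp_ne_zero p
  have hP' : 0 < P.ord (jp p)⁻¹ := by
    rw [P.ord_inv]
    by_contra hle
    exact hP ((FF.mem_iff_ord_nonneg P).mpr (by omega))
  have h1 : (cuspInf p).ord (jp p)⁻¹ = 1 := by
    rw [Place.ord_inv, ord_cuspInf p hj0, order_jp]; rfl
  have h2 : (cuspZero p).ord (jp p)⁻¹ = p := by
    rw [Place.ord_inv, ord_cuspZero p hj0, order_wp_jp, neg_neg]
  have hpos : ∀ v ∈ ({P, cuspInf p, cuspZero p} : Finset _), 0 < v.ord (jp p)⁻¹ := by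
    intro v hv
    simp only [Finset.mem_insert, Finset.mem_singleton] at hv
    rcases hv with rfl | rfl | rfl
    · exact hP'
    · rw [h1]; norm_num
    · rw [h2]; exact_mod_cast hp.out.pos
  have hle := FF.sum_ord_mul_deg_le (K := Qb) (x := (jp p)⁻¹)
    (FF.transcendental_of_ord_ne_zero P hP'.ne') {P, cuspInf p, cuspZero p} hpos
  have hfin : Module.finrank (IntermediateField.adjoin Qb {(jp p)⁻¹})
      (modularFunctionFieldBar (1 * p)) = p + 1 := by
    rw [show IntermediateField.adjoin Qb {(jp p)⁻¹} =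
        IntermediateField.adjoin Qb {MF.Coeff.jElem Qb (1 * p)} from le_antisymm
          (IntermediateField.adjoin_simple_le_iff.mpr
            (inv_mem (jp_eq_jElem p ▸ IntermediateField.mem_adjoin_simple_self _ _)))
          (IntermediateField.adjoin_simple_le_iff.mpr (by
            rw [← jp_eq_jElem, ← inv_inv (jp p)]
            exact inv_mem (by rw [inv_inv]; exact IntermediateField.mem_adjoin_simple_self _ _))),
      MF.Coeff.finrank_adjoin_jElem, HK.Corr.psi_mul_prime_of_not_dvd hp.out hp.out.not_dvd_one,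
      dedekindPsi_one, mul_one]
  rw [hfin, Finset.sum_insert (by simp [hcon.1, hcon.2]),
    Finset.sum_insert (by simp [(cuspZero_ne p).symm]), Finset.sum_singleton, FF.deg_eq_one,
    FF.deg_eq_one, FF.deg_eq_one, h1, h2] at hle
  push_cast at hle
  omega

omit hp in
theorem smul_cuspInf (σ : Qb ≃ₐ[ℚ] Qb) :
    arithmeticGalois (modularFunctionFieldFull (1 * p)) σ • cuspInf p = cuspInf p := by
  set g := arithmeticGalois (modularFunctionFieldFull (1 * p)) σ with hg
  refine Place.ext ?_
  rw [SemilinearAut.smul_toValuationSubring]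
  ext f
  rw [ValuationSubring.mem_pointwise_smul_iff_inv_smul_mem, hg, ← map_inv]
  show arithmeticGalois (modularFunctionFieldFull (1 * p)) σ⁻¹ • f ∈
      LLp.orderRing (modularFunctionFieldBar (1 * p)) ↔
    f ∈ LLp.orderRing (modularFunctionFieldBar (1 * p))
  have hinj : Function.Injective ((σ⁻¹ : Qb ≃ₐ[ℚ] Qb) : Qb →+* Qb) := (σ⁻¹).injective
  have hord : ((arithmeticGalois (modularFunctionFieldFull (1 * p)) σ⁻¹ • f :
      modularFunctionFieldBar (1 * p)) : LaurentSeries Qb).order =
      (f : LaurentSeries Qb).order := by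
    rw [coe_arithmeticGalois_smul]
    rcases eq_or_ne (f : LaurentSeries Qb) 0 with h | h
    · rw [h, map_zero]
    have hne : ∀ i, (coeffMap ((σ⁻¹ : Qb ≃ₐ[ℚ] Qb) : Qb →+* Qb) (f : LaurentSeries Qb)).coeff i ≠ 0 ↔
        (f : LaurentSeries Qb).coeff i ≠ 0 := fun i => by
      rw [coeffMap_coeff]; exact (map_ne_zero_iff _ hinj)
    have h0 : (f : LaurentSeries Qb).coeff (f : LaurentSeries Qb).order ≠ 0 :=
      fun e => h (HahnSeries.coeff_order_eq_zero.mp e)
    have hne0 := HahnSeries.ne_zero_of_coeff_ne_zero ((hne _).mpr h0)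
    refine le_antisymm (HahnSeries.order_le_of_coeff_ne_zero ((hne _).mpr h0)) ?_
    exact HahnSeries.order_le_of_coeff_ne_zero
      ((hne _).mp fun e => hne0 (HahnSeries.coeff_order_eq_zero.mp e))
  simp only [LLp.mem_orderRing, hord, smul_eq_zero_iff_eq]

theorem smul_cuspZero (σ : Qb ≃ₐ[ℚ] Qb) :
    arithmeticGalois (modularFunctionFieldFull (1 * p)) σ • cuspZero p = cuspZero p := by
  set g := arithmeticGalois (modularFunctionFieldFull (1 * p)) σ
  have hgj : g • jp p = jp p := Subtype.ext (by
    rw [coe_arithmeticGalois_smul, coe_jp]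
    exact coeffMap_jqModC _)
  have hmem : jp p ∉ (g • cuspZero p).toValuationSubring := fun h => by
    have h1 := (FF.mem_iff_ord_nonneg _).mp h
    rw [← hgj, SemilinearAut.ord_smul, ord_cuspZero p (jp_ne_zero p), order_wp_jp] at h1
    have := hp.out.pos
    omega
  rcases eq_cusp_of_pole p hmem with h | h
  · rw [← smul_cuspInf p σ] at h
    exact absurd (smul_left_cancel g h) (cuspZero_ne p)
  · exact h

omit hp in
theorem pairV_mem_level : pairV Qb 1 p ∈ modularFunctionFieldBar (1 * p) :=
  pairV_mem iotaC (one_dvd p) (dvd_mul_left p 1)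

omit hp in
theorem pairU_mem_level : pairU Qb 1 p ∈ modularFunctionFieldBar (1 * p) :=
  pairU_mem iotaC (one_dvd p) (dvd_mul_left p 1)

/-- The unit `Δ(τ)/Δ(pτ)`. -/
def unit : modularFunctionFieldBar (1 * p) := ⟨pairV Qb 1 p, pairV_mem_level p⟩

omit hp in
theorem hasLead_pairV (R : Type) [Field R] : HasLead (pairV R 1 p) (1 - p : ℤ) 1 := by
  have h := ((hasLead_deltaSeries R).qExpand 1).mul ((hasLead_deltaInvSeries R).qExpand p)
  rw [show ((1 : ℕ) : ℤ) * 1 + (p : ℤ) * -1 = 1 - p from by push_cast; ring, one_mul] at h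
  exact h

theorem pairU_ne_zero : pairU Qb 1 p ≠ 0 ∧ (pairU Qb 1 p).order = (p : ℤ) - 1 := by
  have h := (hasLead_C (((p / 1 : ℕ) : Qb) ^ 12)).mul
    (((hasLead_deltaSeries Qb).qExpand p).mul ((hasLead_deltaInvSeries Qb).qExpand 1))
  have hc : ((p / 1 : ℕ) : Qb) ^ 12 * (1 * 1) ≠ 0 := by
    rw [mul_one, mul_one, Nat.div_one]
    exact pow_ne_zero _ (Nat.cast_ne_zero.mpr hp.out.ne_zero)
  refine ⟨fun h0 => ?_, (order_of_hasLead h hc).trans (by push_cast; ring)⟩
  have h1 : (pairU Qb 1 p).order = _ := order_of_hasLead h hc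
  rw [h0, HahnSeries.order_zero] at h1
  have := hp.out.one_lt
  push_cast at h1
  omega

theorem unit_ne_zero : unit p ≠ 0 := fun h => by
  have h1 := order_of_hasLead (hasLead_pairV p Qb) one_ne_zero
  rw [show pairV Qb 1 p = ((unit p : modularFunctionFieldBar (1 * p)) : LaurentSeries Qb) from rfl,
    h, ZeroMemClass.coe_zero, HahnSeries.order_zero] at h1
  have := hp.out.one_lt
  omega

theorem ord_unit_of_mem {P : Place Qb (modularFunctionFieldBar (1 * p))}
    (hP : jp p ∈ P.toValuationSubring) : P.ord (unit p) = 0 := by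
  have hu := pairU_mem_level p
  have hV := mem_place_of_isIntegralElem (pairV_mem_level p)
    (isIntegralElem_pairV iotaC (one_dvd p) (dvd_mul_left p 1)) P hP
  have hU := mem_place_of_isIntegralElem hu
    (isIntegralElem_pairU iotaC (one_dvd p) (dvd_mul_left p 1)) P hP
  have h1 := FF.PlacesOver.ord_nonneg_of_mem P hV
  have h2 := FF.PlacesOver.ord_nonneg_of_mem P hU
  have hu0 : (⟨_, hu⟩ : modularFunctionFieldBar (1 * p)) ≠ 0 :=
    fun h => (pairU_ne_zero p).1 (congrArg Subtype.val h)
  have hmul : (⟨_, hu⟩ : modularFunctionFieldBar (1 * p)) * unit p =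
      algebraMap Qb _ ((p : Qb) ^ 12) := Subtype.ext (by
    rw [IntermediateField.coe_mul]
    show _ = algebraMap Qb (LaurentSeries Qb) _
    rw [algebraMap_laurentSeries_eq_single]
    simpa [unit] using pairU_mul_pairV (R := Qb) 1 p)
  have h3 := P.ord_mul hu0 (unit_ne_zero p)
  rw [hmul, FF.ord_eq_zero_of_isAlgebraic _ (isAlgebraic_algebraMap _)] at h3
  change 0 ≤ P.ord (unit p) at h1
  omega

/-- The divisor of `Δ(τ)/Δ(pτ)`. -/
theorem unit_divisor (P : Place Qb (modularFunctionFieldBar (1 * p))) :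
    (Finsupp.single (cuspZero p) ((p : ℤ) - 1) - Finsupp.single (cuspInf p) ((p : ℤ) - 1)) P =
      P.ord (unit p) := by
  classical
  rw [Finsupp.sub_apply, Finsupp.single_apply, Finsupp.single_apply]
  by_cases h : jp p ∈ P.toValuationSubring
  · have hI : cuspInf p ≠ P := fun e => by
      have h1 := (FF.mem_iff_ord_nonneg P).mp h
      rw [← e, ord_cuspInf p (jp_ne_zero p), order_jp] at h1
      norm_num at h1
    have hZ : cuspZero p ≠ P := fun e => by
      have h1 := (FF.mem_iff_ord_nonneg P).mp h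
      rw [← e, ord_cuspZero p (jp_ne_zero p), order_wp_jp] at h1
      have := hp.out.pos
      omega
    rw [if_neg hI, if_neg hZ, ord_unit_of_mem p h, sub_zero]
  · rcases eq_cusp_of_pole p h with rfl | rfl
    · rw [if_neg (cuspZero_ne p), if_pos rfl, ord_cuspInf p (unit_ne_zero p)]
      show _ = (pairV Qb 1 p).order
      rw [order_of_hasLead (hasLead_pairV p Qb) one_ne_zero]
      ring
    · rw [if_pos rfl, if_neg (cuspZero_ne p).symm, ord_cuspZero p (unit_ne_zero p),
        show (wp p (unit p) : LaurentSeries Qb) = pairU Qb 1 p from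
          wField_pairV hp.out (not_dvd_one_level p) (pairV_mem_level p), (pairU_ne_zero p).2,
        sub_zero]

end Fermat.Agent.Mazur.CuspTwo
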