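import Fermat.Agent.Mazur.CuspTwo.Series
import Fermat.Agent.Mazur.CuspTwo.Cusps
import Fermat.Agent.Mazur.Two.RankZero
import Fermat.Agent.RED.X0LiftAll

/-!
# The cuspidal class at two

A multiple of the class of the difference of the cusps of `X₀(p)` is killed by sixteen, rational,
and does not vanish after reduction at two: otherwise the reduction of `Δ(τ)/Δ(pτ)` would be a
constant multiple of a sixteenth power.
-/

set_option autoImplicit false
set_option linter.style.haveILetI false

noncomputable section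

open ModularCurve AlgebraicCurve Fermat.Agent.Igusa Fermat.Agent.Carayol

namespace Fermat.Agent.Mazur.CuspTwo

open Fermat.Agent.FlatTangent

local notation "Qb" => AlgebraicClosure ℚ

/-- In a function field with algebraically closed constants, a function with divisor `n` times
that of `g` is a constant multiple of `g ^ n`. -/
theorem exists_eq_algebraMap_mul_pow {K F : Type*} [Field K] [IsAlgClosed K] [Field F]
    [Algebra K F] [FF.IsFunctionField K F] {u g : F} (hu : u ≠ 0) (hg : g ≠ 0) (n : ℕ)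
    (h : ∀ v : Place K F, v.ord u = n * v.ord g) : ∃ a : K, u = algebraMap K F a * g ^ n := by
  have halg : IsAlgebraic K (u / g ^ n) := by
    refine FF.isAlgebraic_of_forall_ord_nonneg fun v => le_of_eq ?_
    rw [FF.ord_div v hu (pow_ne_zero n hg), FF.ord_pow v, h v]
    simp
  have hint := halg.isIntegral
  obtain ⟨a, ha⟩ := minpoly.mem_range_of_degree_eq_one (A := K) (x := u / g ^ n)
    (IsAlgClosed.degree_eq_one_of_irreducible K (minpoly.irreducible hint))
  exact ⟨a, by rw [ha, div_mul_cancel₀ _ (pow_ne_zero n hg)]⟩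

theorem sixteen_dvd {p : ℕ} (h4 : 4 ∣ eisensteinNumerator p) : 16 ∣ p - 1 := by
  have hmul : eisensteinNumerator p * Nat.gcd (p - 1) 12 = p - 1 :=
    Nat.div_mul_cancel (Nat.gcd_dvd_left _ _)
  have hg : 4 ∣ Nat.gcd (p - 1) 12 :=
    Nat.dvd_gcd (h4.trans (eisensteinNumerator_dvd p)) (by norm_num)
  rw [← hmul]
  exact Nat.mul_dvd_mul h4 hg

variable (p : ℕ) [hp : Fact p.Prime] [NeZero p]

/-- The multiple of the difference of the cusps. -/
def cuspDiv (o : ℕ) : Divisor.degZero (K := Qb) (F := modularFunctionFieldBar (1 * p)) :=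
  ⟨Finsupp.single (cuspZero p) (o : ℤ) - Finsupp.single (cuspInf p) (o : ℤ), by
    haveI := MF.Coeff.isFunctionField_laurentBaseChange Qb (1 * p)
    rw [Divisor.mem_degZero, map_sub, Divisor.degree_single, Divisor.degree_single, FF.deg_eq_one,
      FF.deg_eq_one, sub_self]⟩

theorem coe_nsmul_cuspDiv {o : ℕ} (ho : p - 1 = 16 * o) :
    ((16 • cuspDiv p o : Divisor.degZero (K := Qb) (F := modularFunctionFieldBar (1 * p))) :
        Divisor Qb (modularFunctionFieldBar (1 * p))) =
      Finsupp.single (cuspZero p) ((p : ℤ) - 1) - Finsupp.single (cuspInf p) ((p : ℤ) - 1) := by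
  have h : (16 : ℕ) • (o : ℤ) = (p : ℤ) - 1 := by
    have := hp.out.pos
    simp only [nsmul_eq_mul]
    omega
  rw [AddSubgroup.coe_nsmul, cuspDiv, nsmul_sub, Finsupp.smul_single, Finsupp.smul_single, h]

theorem nsmul_mk_cuspDiv {o : ℕ} (ho : p - 1 = 16 * o) :
    16 • Pic0.mk (cuspDiv p o) = 0 := by
  show Pic0.mk (16 • cuspDiv p o) = 0
  refine (QuotientAddGroup.eq_zero_iff _).mpr ?_
  rw [AddSubgroup.mem_addSubgroupOf, coe_nsmul_cuspDiv p ho]
  exact ⟨unit p, unit_ne_zero p, unit_divisor p⟩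

theorem smul_mk_cuspDiv (o : ℕ) (σ : Gal) :
    (σ • (Pic0.mk (cuspDiv p o) : JZero (1 * p)) : JZero (1 * p)) = Pic0.mk (cuspDiv p o) := by
  rw [galois_smul_pic0_def, SemilinearAut.pic0_smul_mk]
  refine congrArg Pic0.mk (Subtype.ext ?_)
  rw [SemilinearAut.coe_degZeroSMulHom, cuspDiv, smul_sub, SemilinearAut.smul_single,
    SemilinearAut.smul_single, smul_cuspInf, smul_cuspZero]

set_option maxHeartbeats 2000000 in
set_option synthInstance.maxHeartbeats 400000 in
theorem red_mk_cuspDiv {o : ℕ} (ho : p - 1 = 16 * o) (hp8 : 8 < p) (h16 : 16 ∣ p - 1) :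
    reductionModL (plc 2) (1 * p) (Pic0.mk (cuspDiv p o)) ≠ 0 := by
  set A := plc 2
  have hA : A.LiesOverPrime 2 := plc_liesOverPrime 2
  have hN : ¬ 2 ∣ 1 * p := by
    rw [one_mul]
    intro h
    have := (hp.out.eq_one_or_self_of_dvd 2 h)
    omega
  have hlift := RED.x0Lift Nat.prime_two hN hA
  have hinp := RED.reductionInputsModL Nat.prime_two hN hA hlift
  haveI := Galois.place_residueField_isAlgClosed A
  haveI := Galois.place_charP_residueField hA Nat.prime_two
  haveI := RED.isFunctionField_special (k := IsLocalRing.ResidueField A) (1 * p)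
    (RED.natCast_residue_ne_zero Nat.prime_two hN hA)
  rw [reductionModL_mk hinp]
  intro h0
  obtain ⟨g, hg, hdiv⟩ := AddSubgroup.mem_addSubgroupOf.mp ((QuotientAddGroup.eq_zero_iff _).mp h0)
  set r := placeReductionModL hinp
  have hy : coeffMap A.subtype (pairV A 1 p) = pairV Qb 1 p := coeffMap_pairV _ 1 p
  have hyr : coeffMap (IsLocalRing.residue A) (pairV A 1 p) =
      pairV (IsLocalRing.ResidueField A) 1 p := coeffMap_pairV _ 1 p
  obtain ⟨u, hu, -⟩ := (RED.isCoefficientwise_x0Red Nat.prime_two hN hA).mem (pairV A 1 p)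
    (hy ▸ pairV_mem_level p)
  have hne : coeffMap (IsLocalRing.residue A) (pairV A 1 p) ≠ 0 := fun h => by
    have h1 := coeff_pairV_add_eight (k := IsLocalRing.ResidueField A) hp8
    rw [← hyr, h] at h1
    exact zero_ne_one h1
  have hord : ∀ Q : Place (IsLocalRing.ResidueField A)
      (modularFunctionFieldFullC (IsLocalRing.ResidueField A) (1 * p)),
      Q.ord u = ((16 : ℕ) : ℤ) * Q.ord g := fun Q => by
    have h2 := (isPlaceReductionModL_placeReductionModL hinp).2 (pairV A 1 p)
      (hy ▸ pairV_mem_level p) (hu ▸ u.2) hne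
      ((16 • cuspDiv p o : Divisor.degZero (K := Qb) (F := modularFunctionFieldBar (1 * p))) :
        Divisor Qb (modularFunctionFieldBar (1 * p))) (fun P => by
        rw [coe_nsmul_cuspDiv p ho, unit_divisor]
        exact congrArg P.ord (Subtype.ext hy.symm)) Q
    rw [show (⟨_, hu ▸ u.2⟩ : modularFunctionFieldFullC (IsLocalRing.ResidueField A) (1 * p)) = u
      from Subtype.ext hu.symm] at h2
    rw [← h2, AddSubgroup.coe_nsmul, ← Finsupp.mapDomain.addMonoidHom_apply, map_nsmul,
      Finsupp.smul_apply, ← hdiv Q, nsmul_eq_mul]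
    rfl
  obtain ⟨a, ha⟩ := exists_eq_algebraMap_mul_pow (K := IsLocalRing.ResidueField A)
    (u := u) (fun h => hne (by rw [← hu, h]; rfl)) hg 16 hord
  refine pairV_ne_mul_pow hp8 h16 (le_refl 4) a
    (g : LaurentSeries (IsLocalRing.ResidueField A)) ?_
  rw [← hyr, ← hu, ha, IntermediateField.coe_mul]
  congr 1
  exact algebraMap_laurentSeries_eq_single (IsLocalRing.ResidueField A) a

theorem cuspClassTwo_level (h4 : 4 ∣ eisensteinNumerator p) : CuspClassTwo (1 * p) := by
  have h16 := sixteen_dvd h4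
  obtain ⟨o, ho⟩ := h16
  have hp8 : 8 < p := by
    have h1 : p - 1 ≠ 0 := Nat.sub_ne_zero_of_lt hp.out.one_lt
    omega
  exact ⟨4, Pic0.mk (cuspDiv p o), nsmul_mk_cuspDiv p ho, smul_mk_cuspDiv p o,
    red_mk_cuspDiv p ho hp8 (sixteen_dvd h4)⟩

end CuspTwo

/-- The cuspidal class at two. -/
theorem cuspClassTwo {p : ℕ} [NeZero p] (hp : p.Prime) (h4 : 4 ∣ eisensteinNumerator p) :
    CuspClassTwo p := by
  haveI := Fact.mk hp
  have key : ∀ (N : ℕ) [NeZero N], 1 * p = N → CuspClassTwo N := by
    rintro N _ rfl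
    exact CuspTwo.cuspClassTwo_level p h4
  exact key p (one_mul p)

end Fermat.Agent.Mazur
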