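import Fermat.Agent.RED.Specialization.FrobSeries
import Fermat.Agent.Carayol.Elements
import Fermat.Prelude.Def_ModularCurve_X0

/-!
# The quotient `Δ(τ)/Δ(pτ)` in characteristic two

Its expansion has a non-zero coefficient eight steps above its order, so no non-zero constant
multiple of it is a sixteenth power.
-/

set_option autoImplicit false
set_option linter.style.haveILetI false

noncomputable section

open ModularCurve Fermat.Agent.Igusa Fermat.Agent.Carayol

open scoped PowerSeries.WithPiTopology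

namespace Fermat.Agent.Mazur.CuspTwo

theorem coeff_one_etaProd : PowerSeries.coeff 1 etaProd = -1 := by
  have h := (PowerSeries.WithPiTopology.multipliable_one_sub_X_pow ℤ).hasProd
  have hc := PowerSeries.WithPiTopology.continuous_coeff ℤ 1
  refine tendsto_nhds_unique ((hc.tendsto _).comp h)
    (tendsto_const_nhds.congr' ?_)
  refine Filter.eventually_atTop.mpr ⟨{0}, fun s hs => ?_⟩
  have h0 : (0 : ℕ) ∈ s := hs (Finset.mem_singleton_self 0)
  have hrest : ∀ t : Finset ℕ, 0 ∉ t →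
      PowerSeries.coeff 1 (∏ n ∈ t, (1 - (PowerSeries.X : PowerSeries ℤ) ^ (n + 1))) = 0 ∧
        PowerSeries.constantCoeff (∏ n ∈ t, (1 - (PowerSeries.X : PowerSeries ℤ) ^ (n + 1))) = 1 := by
    intro t ht
    induction t using Finset.induction_on with
    | empty => simp
    | insert n t hn ih =>
      obtain ⟨h1, h2⟩ := ih fun h => ht (Finset.mem_insert_of_mem h)
      have hn0 : n ≠ 0 := fun h => ht (h ▸ Finset.mem_insert_self n t)
      rw [Finset.prod_insert hn, sub_mul, one_mul]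
      refine ⟨?_, ?_⟩
      · rw [map_sub, h1, PowerSeries.coeff_X_pow_mul']
        simp [hn0]
      · simp [h2]
  obtain ⟨h1, h2⟩ := hrest (s.erase 0) (Finset.notMem_erase 0 s)
  show (-1 : ℤ) = PowerSeries.coeff 1 (∏ n ∈ s, (1 - (PowerSeries.X : PowerSeries ℤ) ^ (n + 1)))
  rw [← Finset.mul_prod_erase s _ h0, sub_mul, one_mul, map_sub, h1, zero_add, pow_one,
    ← zero_add 1, PowerSeries.coeff_succ_X_mul, PowerSeries.coeff_zero_eq_constantCoeff, h2]
  rfl

/-- Squaring doubles the exponents modulo two. -/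
theorem map_zmod_two_sq (f : PowerSeries (ZMod 2)) :
    f ^ 2 = PowerSeries.expand 2 two_ne_zero f := by
  haveI : ExpChar (ZMod 2) 2 := ExpChar.prime Nat.prime_two
  have h := MvPowerSeries.map_frobenius_expand (R := ZMod 2) (σ := Unit) 2 two_ne_zero (f := f)
  rw [show frobenius (ZMod 2) 2 = RingHom.id _ from ZMod.frobenius_zmod 2, MvPowerSeries.map_id] at h
  exact h.symm

theorem coeff_eight_dedekindEtaUnit :
    ((PowerSeries.coeff 8 dedekindEtaUnit : ℤ) : ZMod 2) = 1 := by
  set g := etaProd.map (Int.castRingHom (ZMod 2)) with hg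
  have hU : dedekindEtaUnit.map (Int.castRingHom (ZMod 2)) =
      PowerSeries.expand 2 two_ne_zero (PowerSeries.expand 2 two_ne_zero
        (PowerSeries.expand 2 two_ne_zero (g ^ 3))) := by
    rw [← map_zmod_two_sq, ← map_zmod_two_sq, ← map_zmod_two_sq, dedekindEtaUnit, map_pow, ← hg,
      ← pow_mul, ← pow_mul, ← pow_mul]
  have h := congrArg (PowerSeries.coeff 8) hU
  rw [PowerSeries.coeff_map, eq_intCast, show (8 : ℕ) = 2 * (2 * (2 * 1)) from rfl,
    PowerSeries.coeff_expand_mul, PowerSeries.coeff_expand_mul, PowerSeries.coeff_expand_mul] at h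
  rw [show (8 : ℕ) = 2 * (2 * (2 * 1)) from rfl, h, PowerSeries.coeff_one_pow, hg,
    PowerSeries.coeff_map, coeff_one_etaProd, ← PowerSeries.coeff_zero_eq_constantCoeff,
    PowerSeries.coeff_map, PowerSeries.coeff_zero_eq_constantCoeff, constantCoeff_etaProd]
  decide

variable {k : Type} [Field k] [CharP k 2]

theorem coeff_eight_map :
    PowerSeries.coeff 8 (dedekindEtaUnit.map (Int.castRingHom k)) = 1 := by
  rw [PowerSeries.coeff_map, eq_intCast,
    ← map_intCast (ZMod.castHom (dvd_refl 2) k), coeff_eight_dedekindEtaUnit, map_one]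

/-- The coefficient eight steps above the order. -/
theorem coeff_pairV_add_eight {p : ℕ} [NeZero p] (hp : 8 < p) :
    (pairV k 1 p).coeff (1 - (p : ℤ) + 8) = 1 := by
  rw [pairV, qExpand_one_apply, deltaSeries, deltaInvSeries, map_mul (qExpand k p), qExpand_single,
    RED.Spec.qExpand_ofPowerSeries, mul_mul_mul_comm, HahnSeries.single_mul_single, ← map_mul,
    mul_one, show (1 : ℤ) + (p : ℤ) * -1 = 1 - p from by ring, add_comm (1 - (p : ℤ)) 8,
    HahnSeries.coeff_single_mul_add, one_mul, show (8 : ℤ) = ((8 : ℕ) : ℤ) from rfl,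
    HahnSeries.ofPowerSeries_apply_coeff, PowerSeries.coeff_mul,
    Finset.sum_eq_single (8, 0)]
  · rw [coeff_eight_map, one_mul, PowerSeries.coeff_expand, if_pos (dvd_zero p), Nat.zero_div,
      PowerSeries.coeff_map, PowerSeries.coeff_zero_eq_constantCoeff,
      constantCoeff_dedekindEtaUnitInv, map_one]
  · rintro ⟨i, j⟩ hij hne
    rw [Finset.HasAntidiagonal.mem_antidiagonal] at hij
    have hj : j ≠ 0 := fun h => hne (by subst h; simp_all)
    rw [PowerSeries.coeff_expand, if_neg fun h => absurd (Nat.le_of_dvd (Nat.pos_of_ne_zero hj) h)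
      (by simp only at hij; omega), mul_zero]
  · intro h
    exact absurd (Finset.HasAntidiagonal.mem_antidiagonal.mpr (add_zero 8)) h

/-- A sixteenth power is a series in `q ^ 16`. -/
theorem coeff_pow_sixteen_eq_zero (g : LaurentSeries k) {i : ℤ} (hi : ¬ (16 : ℤ) ∣ i) :
    (g ^ 16).coeff i = 0 := by
  haveI : Fact (Nat.Prime 2) := ⟨Nat.prime_two⟩
  have hsq : ∀ x : LaurentSeries k, x ^ 2 = qExpand k 2 (coeffMap (frobenius k 2) x) :=
    fun x => RED.Spec.laurentSeries_pow_char 2 x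
  rw [show (16 : ℕ) = 2 * 2 * 2 * 2 from rfl, pow_mul, pow_mul, pow_mul, hsq]
  by_cases h2 : (2 : ℤ) ∣ i
  swap
  · exact qExpand_coeff_of_not_dvd 2 _ (by exact_mod_cast h2)
  obtain ⟨i, rfl⟩ := h2
  rw [show (2 : ℤ) = ((2 : ℕ) : ℤ) from rfl, qExpand_coeff_mul, coeffMap_coeff, hsq]
  by_cases h2 : (2 : ℤ) ∣ i
  swap
  · rw [qExpand_coeff_of_not_dvd 2 _ (by exact_mod_cast h2), map_zero]
  obtain ⟨i, rfl⟩ := h2
  rw [show (2 : ℤ) = ((2 : ℕ) : ℤ) from rfl, qExpand_coeff_mul, coeffMap_coeff, hsq]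
  by_cases h2 : (2 : ℤ) ∣ i
  swap
  · rw [qExpand_coeff_of_not_dvd 2 _ (by exact_mod_cast h2), map_zero, map_zero]
  obtain ⟨i, rfl⟩ := h2
  rw [show (2 : ℤ) = ((2 : ℕ) : ℤ) from rfl, qExpand_coeff_mul, coeffMap_coeff, hsq]
  by_cases h2 : (2 : ℤ) ∣ i
  swap
  · rw [qExpand_coeff_of_not_dvd 2 _ (by exact_mod_cast h2), map_zero, map_zero, map_zero]
  obtain ⟨i, rfl⟩ := h2
  exact absurd ⟨i, by ring⟩ hi

/-- No constant multiple of `Δ(τ)/Δ(pτ)` is a `2 ^ s`-th power, `s ≥ 4`. -/
theorem pairV_ne_mul_pow {p : ℕ} [NeZero p] (hp : 8 < p) (h16 : 16 ∣ p - 1) {s : ℕ} (hs : 4 ≤ s)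
    (a : k) (g : LaurentSeries k) :
    pairV k 1 p ≠ HahnSeries.single (0 : ℤ) a * g ^ 2 ^ s := by
  intro h
  obtain ⟨t, rfl⟩ := Nat.exists_eq_add_of_le' hs
  have h1 := congrArg (fun x : LaurentSeries k => x.coeff (1 - (p : ℤ) + 8)) h
  simp only [coeff_pairV_add_eight hp] at h1
  rw [pow_add, pow_mul, show (1 - (p : ℤ) + 8) = (1 - (p : ℤ) + 8) + 0 from (add_zero _).symm,
    HahnSeries.coeff_single_mul_add, show (2 : ℕ) ^ 4 = 16 from rfl, coeff_pow_sixteen_eq_zero,
    mul_zero] at h1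
  · exact one_ne_zero h1
  · obtain ⟨c, hc⟩ := h16
    intro hd
    have he : (1 - (p : ℤ)) = -(16 * (c : ℤ)) := by omega
    rw [he] at hd
    omega

end Fermat.Agent.Mazur.CuspTwo
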